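import Mathlib
import Fermat.Agent.H62.Cheb.Interfaces

/-!
# P-CHEB, phase 2: Chebotarev's density theorem (Dirichlet density, lower bound) -- interfaces

Consumer: P-DS (S48, Deligne--Serre), block (5): for a finite Galois `K/ℚ` and a set
`C ⊆ Gal(K/ℚ)`, the primes whose Frobenius class meets `C` have lower Dirichlet density
`≥ |C| / |G|`.

Route (Chebotarev's field crossing, no class field theory):

* analytic block over a number field `E = K^D`, `K ∋ ζ_m`, `D` acting faithfully on `ζ_m`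
  (so `K = E(ζ_m)`): degree-one primes of `E` with norm `≡ a mod m` have Dirichlet density
  `1/|D|` for every `a` in the image of `D` (`CycloDensityStatement`).  Inputs:
  `IdealCharSumStatement` (lattice points in cosets), `AbelBoundedStatement` (partial summation),
  `LogLiftBoundedStatement`, `EulerLogStatement` (Euler product), `SplitCountStatement`
  (splitting of degree-one primes), and `DegOneAsymptoticStatement` (phase 1, landed);
* crossing: `CycloDensityStatement` + `FrobCountStatement` ⟹ `ChebotarevElementStatement` ⟹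
  `ChebotarevDensityNFStatement`;
* bridge to the prelude language: `ChebotarevDensityStatement`.

All statements are `Prop`-valued definitions.
-/

set_option autoImplicit false

open NumberField Ideal IsDedekindDomain
open scoped Pointwise Classical

namespace Fermat.Agent.H62.Cheb2

open Fermat.Agent.H62.Cheb

/-! ### Frobenius elements and the density statement -/

/-- `g` is the arithmetic Frobenius at the prime `v` of `𝓞 K` over the rational prime `p`. -/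
def IsFrobAt (K : Type) [Field K] [NumberField K] (g : K ≃ₐ[ℚ] K) (p : ℕ)
    (v : Ideal (𝓞 K)) : Prop :=
  v.IsPrime ∧ ((p : ℕ) : 𝓞 K) ∈ v ∧
    ∀ x : 𝓞 K, NumberField.RingOfIntegers.mapRingEquiv g.toRingEquiv x - x ^ p ∈ v

/-- the primes `p`, unramified in `K`, such that some element of `C` is a Frobenius at some prime
of `K` over `p` -/
def frobPrimes (K : Type) [Field K] [NumberField K] (C : Set (K ≃ₐ[ℚ] K)) : Set Nat.Primes :=
  {p | ¬ (((p : ℕ) : ℤ) ∣ NumberField.discr K) ∧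
    ∃ g ∈ C, ∃ v : Ideal (𝓞 K), IsFrobAt K g p v}

/-- `∑ p^(-s)` over the primes `p ∉ T` in `frobPrimes K C` -/
noncomputable def frobSum (K : Type) [Field K] [NumberField K] (C : Set (K ≃ₐ[ℚ] K))
    (T : Finset ℕ) (s : ℝ) : ℝ :=
  ∑' p : Nat.Primes, if p ∈ frobPrimes K C ∧ (p : ℕ) ∉ T then ((p : ℕ) : ℝ) ^ (-s) else 0

/-- **Chebotarev's density theorem**, number-field form, lower bound for the Dirichlet density:
for every `ε > 0`, `∑_{p ∉ T, Frob_p ∩ C ≠ ∅} p^(-s) ≥ (|C|/|G| - ε) log (1/(s-1))` for `s`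
close to `1`. -/
def ChebotarevDensityNFStatement : Prop :=
  ∀ (K : Type) [Field K] [NumberField K] [IsGalois ℚ K] (C : Set (K ≃ₐ[ℚ] K)) (T : Finset ℕ)
    (ε : ℝ), 0 < ε → ∃ δ : ℝ, 0 < δ ∧ ∀ s : ℝ, 1 < s → s < 1 + δ →
      ((C.ncard : ℝ) / (Nat.card (K ≃ₐ[ℚ] K) : ℝ) - ε) * Real.log (1 / (s - 1)) ≤
        frobSum K C T s

/-- the primes `p ∉ T` for which there are a place `A` of `ℚ̄` over `p`, with inertia acting
trivially on `K`, and a Frobenius element at `A` whose restriction to `K` lies in `C` -/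
def frobPrimesBar (K : IntermediateField ℚ (AlgebraicClosure ℚ)) [FiniteDimensional ℚ K]
    [IsGalois ℚ K] (C : Set (K ≃ₐ[ℚ] K)) (T : Finset ℕ) : Set Nat.Primes :=
  {p | (p : ℕ) ∉ T ∧ ∃ A : ValuationSubring (AlgebraicClosure ℚ), A.LiesOverPrime p ∧
    (∀ ι ∈ A.inertiaSubgroupIn ℚ, ∀ x ∈ K, ι x = x) ∧
    ∃ τ : AlgebraicClosure ℚ ≃ₐ[ℚ] AlgebraicClosure ℚ, A.IsFrobeniusAt τ p ∧
      AlgEquiv.restrictNormalHom K τ ∈ C}

/-- **Chebotarev's density theorem**, prelude language (lower Dirichlet density). -/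
def ChebotarevDensityStatement : Prop :=
  ∀ (K : IntermediateField ℚ (AlgebraicClosure ℚ)) [FiniteDimensional ℚ K] [IsGalois ℚ K]
    (C : Set (K ≃ₐ[ℚ] K)) (T : Finset ℕ) (ε : ℝ), 0 < ε →
    ∃ δ : ℝ, 0 < δ ∧ ∀ s : ℝ, 1 < s → s < 1 + δ →
      ((C.ncard : ℝ) / (Nat.card (K ≃ₐ[ℚ] K) : ℝ) - ε) * Real.log (1 / (s - 1)) ≤
        ∑' p : Nat.Primes, if p ∈ frobPrimesBar K C T then ((p : ℕ) : ℝ) ^ (-s) else 0

/-! ### The analytic block -/

/-- the degree-one prime sum of `E` restricted to the primes `p ≡ a mod m` -/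
noncomputable def classDegOneSum (E : Type) [Field E] [NumberField E] (m : ℕ) (a : ZMod m)
    (s : ℝ) : ℝ :=
  ∑' p : Nat.Primes,
    if (((p : ℕ) : ZMod m) = a) then (primeCount E p : ℝ) * ((p : ℕ) : ℝ) ^ (-s) else 0

/-- number of ideals of `𝓞 E` of absolute norm `n` -/
noncomputable def idealCount (E : Type) [Field E] [NumberField E] (n : ℕ) : ℕ :=
  Nat.card {I : Ideal (𝓞 E) // absNorm I = n}

/-- coefficients of `L_E(s, χ ∘ N) = ∑_I χ(N I) N(I)^(-s)` -/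
noncomputable def normCharCoeff (E : Type) [Field E] [NumberField E] (m : ℕ)
    (χ : DirichletCharacter ℂ m) (n : ℕ) : ℂ :=
  χ (n : ZMod m) * (idealCount E n : ℂ)

/-- the degree-one prime sum twisted by `χ`: `∑_p χ(p) #{𝔭 : N𝔭 = p} p^(-s)` -/
noncomputable def charDegOneSum (E : Type) [Field E] [NumberField E] (m : ℕ)
    (χ : DirichletCharacter ℂ m) (s : ℝ) : ℂ :=
  ∑' p : Nat.Primes, χ ((p : ℕ) : ZMod m) * (primeCount E p : ℂ) * (((p : ℕ) : ℝ) ^ (-s) : ℝ)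

/-- **CH2-COUNT** (lattice points in cosets): the character sums over ideals have a main term
with a power-saving error, `∑_{1 ≤ N(I) ≤ n} χ(N I) = c n + O(n^(1 - 1/[E:ℚ]))`. -/
def IdealCharSumStatement : Prop :=
  ∀ (E : Type) [Field E] [NumberField E] (m : ℕ) [NeZero m] (χ : DirichletCharacter ℂ m),
    ∃ (c : ℂ) (B : ℝ), ∀ n : ℕ,
      ‖(∑ k ∈ Finset.Icc 1 n, normCharCoeff E m χ k) - c * (n : ℂ)‖ ≤
        B * (n : ℝ) ^ (1 - 1 / (Module.finrank ℚ E : ℝ))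

/-- **CH2-ABEL** (partial summation, generic): if `∑_{k ≤ n} a k = c n + O(n^r)`, `r < 1`, and
`L(a, s)` converges absolutely for real `s > 1`, then `L(a, s) - c/(s-1)` is bounded and Lipschitz
on `(1, 2]`. -/
def AbelBoundedStatement : Prop :=
  ∀ (a : ℕ → ℂ) (c : ℂ) (B r : ℝ), 0 ≤ r → r < 1 →
    (∀ n : ℕ, ‖(∑ k ∈ Finset.Icc 1 n, a k) - c * (n : ℂ)‖ ≤ B * (n : ℝ) ^ r) →
    (∀ s : ℝ, 1 < s → LSeriesSummable a (s : ℂ)) →
    ∃ Λ : ℝ, (∀ s : ℝ, 1 < s → s ≤ 2 → ‖LSeries a (s : ℂ) - c / ((s : ℂ) - 1)‖ ≤ Λ) ∧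
      ∀ s s' : ℝ, 1 < s → s ≤ 2 → 1 < s' → s' ≤ 2 →
        ‖(LSeries a (s : ℂ) - c / ((s : ℂ) - 1)) - (LSeries a (s' : ℂ) - c / ((s' : ℂ) - 1))‖ ≤
          Λ * |s - s'|

/-- **CH2-LOG** (generic): a continuous logarithm of a function which is Lipschitz and bounded
away from `0` on `(1, 1 + δ]` is bounded there. -/
def LogLiftBoundedStatement : Prop :=
  ∀ (f ℓ : ℝ → ℂ) (δ c Λ : ℝ), 0 < δ → 0 < c →
    ContinuousOn ℓ (Set.Ioc 1 (1 + δ)) →
    (∀ s ∈ Set.Ioc (1 : ℝ) (1 + δ), Complex.exp (ℓ s) = f s) →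
    (∀ s ∈ Set.Ioc (1 : ℝ) (1 + δ), c ≤ ‖f s‖) →
    (∀ s ∈ Set.Ioc (1 : ℝ) (1 + δ), ∀ s' ∈ Set.Ioc (1 : ℝ) (1 + δ),
      ‖f s - f s'‖ ≤ Λ * |s - s'|) →
    ∃ B : ℝ, ∀ s ∈ Set.Ioc (1 : ℝ) (1 + δ), ‖ℓ s‖ ≤ B

/-- **CH2-EULER** (Euler product and logarithm): `L_E(s, χ ∘ N)` converges absolutely for real
`s > 1` and has a continuous logarithm on `(1, ∞)` which differs from the twisted degree-one prime
sum by a bounded amount on `(1, 2]`; the twisted degree-one prime sum converges absolutely. -/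
def EulerLogStatement : Prop :=
  ∀ (E : Type) [Field E] [NumberField E] (m : ℕ) [NeZero m] (χ : DirichletCharacter ℂ m),
    (∀ s : ℝ, 1 < s → LSeriesSummable (normCharCoeff E m χ) (s : ℂ)) ∧
    (∀ s : ℝ, 1 < s → Summable fun p : Nat.Primes =>
      χ ((p : ℕ) : ZMod m) * (primeCount E p : ℂ) * (((p : ℕ) : ℝ) ^ (-s) : ℝ)) ∧
    ∃ (ℓ : ℝ → ℂ) (B : ℝ), ContinuousOn ℓ (Set.Ioi 1) ∧
      (∀ s : ℝ, 1 < s → Complex.exp (ℓ s) = LSeries (normCharCoeff E m χ) (s : ℂ)) ∧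
      ∀ s : ℝ, 1 < s → s ≤ 2 → ‖ℓ s - charDegOneSum E m χ s‖ ≤ B

/-- **CH2-SPLIT** (algebra, from `CountingStatement`): `K/ℚ` Galois containing a primitive `m`-th
root of unity `ζ`, `D ≤ Gal(K/ℚ)` acting faithfully on `ζ`, `D' ≤ D`, `p ∤ m` unramified in
`K`.  Then the degree-one primes of `K^{D'}` over `p` are the `[D : D']` primes above each degree-one
prime of `K^D` over `p` if the element of `D` acting on `ζ` as `p`-th power lies in `D'`, and
there are none otherwise. -/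
def SplitCountStatement : Prop :=
  ∀ (K : Type) [Field K] [NumberField K] [IsGalois ℚ K] (m : ℕ) [NeZero m] (ζ : K),
    IsPrimitiveRoot ζ m → ∀ D : Subgroup (K ≃ₐ[ℚ] K), (∀ g ∈ D, g ζ = ζ → g = 1) →
    ∀ D' : Subgroup (K ≃ₐ[ℚ] K), D' ≤ D → ∀ p : ℕ, p.Prime → ¬ p ∣ m →
      ¬ ((p : ℤ) ∣ NumberField.discr K) →
      Nat.card D' * primeCount (IntermediateField.fixedField D') p =
        if ∃ g ∈ D', g ζ = ζ ^ p then
          Nat.card D * primeCount (IntermediateField.fixedField D) p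
        else 0

/-- **CH2-CYC** (target of the analytic block): `K/ℚ` Galois containing a primitive `m`-th root of
unity `ζ`, `D ≤ Gal(K/ℚ)` acting faithfully on `ζ`, `E = K^D`.  For `g ∈ D` with `g ζ = ζ ^ a`,
the degree-one primes of `E` of norm `≡ a mod m` have Dirichlet density `1/|D|`, with bounded
error: `∑_{p ≡ a (m)} #{𝔮 ⊂ 𝓞 E : N𝔮 = p} p^(-s) = (1/|D|) log (1/(s-1)) + O(1)`. -/
def CycloDensityStatement : Prop :=
  ∀ (K : Type) [Field K] [NumberField K] [IsGalois ℚ K] (m : ℕ) [NeZero m] (ζ : K),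
    IsPrimitiveRoot ζ m → ∀ D : Subgroup (K ≃ₐ[ℚ] K), (∀ g ∈ D, g ζ = ζ → g = 1) →
    ∀ g ∈ D, ∀ a : ZMod m, g ζ = ζ ^ a.val →
    ∃ B : ℝ, ∃ δ : ℝ, 0 < δ ∧ ∀ s : ℝ, 1 < s → s < 1 + δ →
      |classDegOneSum (IntermediateField.fixedField D) m a s -
        (1 / (Nat.card D : ℝ)) * Real.log (1 / (s - 1))| ≤ B

/-! ### Crossing -/

/-- **CH2-FROBCOUNT** (algebra): `K/ℚ` Galois containing a primitive `m`-th root of unity `ζ`,
`g ∈ Gal(K/ℚ)` such that `⟨g⟩` acts faithfully on `ζ`, `g ζ = ζ ^ a`.  Then for `s > 1`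
`∑_{p ≡ a (m)} #{𝔮 ⊂ 𝓞 (K^⟨g⟩) : N𝔮 = p} p^(-s) ≤ (|Z(g)| / ord g) ∑_{Frob_p ∋ g} p^(-s) + B`,
where `Z(g)` is the centraliser of `g` (the sum on the right is over the primes `p ∉ T`, unramified
in `K`, at which `g` is a Frobenius). -/
def FrobCountStatement : Prop :=
  ∀ (K : Type) [Field K] [NumberField K] [IsGalois ℚ K] (m : ℕ) [NeZero m] (ζ : K),
    IsPrimitiveRoot ζ m → ∀ g : K ≃ₐ[ℚ] K, (∀ h ∈ Subgroup.zpowers g, h ζ = ζ → h = 1) →
    ∀ a : ZMod m, g ζ = ζ ^ a.val → ∀ T : Finset ℕ,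
    ∃ B : ℝ, ∀ s : ℝ, 1 < s →
      classDegOneSum (IntermediateField.fixedField (Subgroup.zpowers g)) m a s ≤
        ((Nat.card (Subgroup.centralizer ({g} : Set (K ≃ₐ[ℚ] K))) : ℝ) / (orderOf g : ℝ)) *
          frobSum K {g} T s + B

/-- **CH2-ONE** (Chebotarev for one element, after crossing): the primes at which a given
`σ ∈ Gal(L/ℚ)` is a Frobenius have lower Dirichlet density `≥ 1/|Z(σ)|`. -/
def ChebotarevElementStatement : Prop :=
  ∀ (L : Type) [Field L] [NumberField L] [IsGalois ℚ L] (σ : L ≃ₐ[ℚ] L) (T : Finset ℕ)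
    (ε : ℝ), 0 < ε → ∃ δ : ℝ, 0 < δ ∧ ∀ s : ℝ, 1 < s → s < 1 + δ →
      (1 / (Nat.card (Subgroup.centralizer ({σ} : Set (L ≃ₐ[ℚ] L))) : ℝ) - ε) *
          Real.log (1 / (s - 1)) ≤ frobSum L {σ} T s

end Fermat.Agent.H62.Cheb2
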