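import Fermat.Agent.H62.Cheb2.Cyclo
import Fermat.Agent.H67.Ch2Count
import Fermat.Agent.H61.ChebAbel
import Fermat.Agent.H65.Cheb2.LogLift
import Fermat.Agent.H89.ChebEuler
import Fermat.Agent.H87.Cheb.SplitCount
import Fermat.Agent.H73.ChebFrobCount
import Fermat.Agent.H5.Cheb2.Cross
import Fermat.Agent.H50.Cheb2.Sum
import Fermat.Agent.H60.Cheb2Bridge
import Fermat.Agent.H47.Cheb2.Adapt

/-!
# P-CHEB phase 2: Chebotarev's density theorem (lower Dirichlet density), unconditional

Assembly of the landed parts:

* `Fermat.Agent.H67.Ch2.idealCharSum`      (CH2-COUNT, helper67 + helper90)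
* `Fermat.Agent.H61.abelBounded`           (CH2-ABEL, helper61)
* `Fermat.Agent.H65.logLiftBounded`        (CH2-LOG, helper65)
* `Fermat.Agent.H89.eulerLog`              (CH2-EULER, helper89)
* `Fermat.Agent.H87.Cheb.splitCount`       (CH2-SPLIT, helper87)
* `Fermat.Agent.H62.Cheb2.cycloDensity`    (CH2-CYC, helper62)
* `Fermat.Agent.H73.FrobCount.frobCount`   (CH2-FROBCOUNT, helper73)
* `Fermat.Agent.H5.Cheb2.chebotarevElement` (CH2-CROSS, helper5)
* `Fermat.Agent.H50.chebotarevDensityNF`   (CH2-SUM, helper50)
* `Fermat.Agent.H60.chebotarevDensity`     (CH2-BRIDGE, helper60)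
* `Fermat.Agent.H47.Cheb2Adapt.chebDensity_DS` (CH2-ADAPT, helper47)
-/

set_option autoImplicit false

namespace Fermat.Agent.H62.Cheb2.Final

open Fermat.Agent.H62.Cheb2

/-- degree-one primes in the classes mod `m`: Dirichlet density `1/|D|` -/
theorem cycloDensityU : CycloDensityStatement :=
  cycloDensity Fermat.Agent.H67.Ch2.idealCharSum Fermat.Agent.H61.abelBounded
    Fermat.Agent.H65.logLiftBounded Fermat.Agent.H89.eulerLog Fermat.Agent.H87.Cheb.splitCount

/-- Chebotarev for one element -/
theorem chebotarevElementU : ChebotarevElementStatement :=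
  Fermat.Agent.H5.Cheb2.chebotarevElement cycloDensityU Fermat.Agent.H73.FrobCount.frobCount

/-- **Chebotarev's density theorem**, number-field form (lower Dirichlet density) -/
theorem chebotarevDensityNFU : ChebotarevDensityNFStatement :=
  Fermat.Agent.H50.chebotarevDensityNF chebotarevElementU

/-- **Chebotarev's density theorem**, prelude language (lower Dirichlet density) -/
theorem chebotarevDensityU : ChebotarevDensityStatement :=
  Fermat.Agent.H60.chebotarevDensity chebotarevDensityNFU

/-- **Chebotarev's density theorem** in the exact consumer shape of P-DS (S48, block 5) -/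
theorem chebDensityDS : Fermat.Agent.H20.DS.ChebDensityStatement :=
  Fermat.Agent.H47.Cheb2Adapt.chebDensity_DS chebotarevDensityU

end Fermat.Agent.H62.Cheb2.Final
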