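import Fermat.Agent.H62.Cheb2.Final
import Fermat.Agent.H79.ChebTrans

/-!
# P-CHEB phase 2: the EXISTENCE form of the full Chebotarev theorem, unconditional

Every `σ ∈ Gal(ℚ̄/ℚ)` agrees on any finite extension `K` of `ℚ` with a Frobenius element at a place
over a prime outside any given finite set (not just a power of a Frobenius, as in phase 1).
-/

set_option autoImplicit false

open NumberField
open scoped Classical

namespace Fermat.Agent.H62.Cheb2.Existence

open Fermat.Agent.H62.Cheb2 Fermat.Agent.H62.Cheb2.Final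

/-- a positive lower bound `c log (1/(s-1)) ≤ ∑' p, [p ∈ P] p^(-s)` near `1` forces `P ≠ ∅` -/
theorem exists_mem_of_lower_bound (P : Nat.Primes → Prop) [DecidablePred P] (c δ : ℝ) (hc : 0 < c) (hδ : 0 < δ)
    (h : ∀ s : ℝ, 1 < s → s < 1 + δ → c * Real.log (1 / (s - 1)) ≤
      ∑' p : Nat.Primes, if P p then ((p : ℕ) : ℝ) ^ (-s) else 0) : ∃ p, P p := by
  by_contra hne
  push Not at hne
  set t : ℝ := min δ 1 / 2 with ht
  have ht0 : 0 < t := by
    have : 0 < min δ 1 := lt_min hδ one_pos
    positivity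
  have htδ : t < δ := by
    have : min δ 1 ≤ δ := min_le_left _ _
    linarith
  have ht1 : t < 1 := by
    have : min δ 1 ≤ 1 := min_le_right _ _
    linarith
  have h1 := h (1 + t) (by linarith) (by linarith)
  have h2 : (∑' p : Nat.Primes, if P p then ((p : ℕ) : ℝ) ^ (-(1 + t)) else 0) = 0 := by
    have : ∀ p : Nat.Primes, (if P p then ((p : ℕ) : ℝ) ^ (-(1 + t)) else 0) = 0 :=
      fun p => if_neg (hne p)
    simp_rw [this]
    exact tsum_zero
  rw [h2, add_sub_cancel_left] at h1
  have h3 : 0 < Real.log (1 / t) := by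
    apply Real.log_pos
    rw [lt_div_iff₀ ht0]
    linarith
  have := mul_pos hc h3
  linarith

/-- **Chebotarev, existence form, number fields**: every `σ ∈ Gal(L/ℚ)` is an arithmetic
Frobenius at a prime of `L` over a rational prime outside `S`. -/
theorem chebotarevNFExists : Fermat.Agent.H87.Cheb.ChebotarevNFStatement := by
  intro L _ _ _ σ S
  have hZ : 0 < (Nat.card (Subgroup.centralizer ({σ} : Set (L ≃ₐ[ℚ] L))) : ℝ) := by
    exact_mod_cast Nat.card_pos
  set c : ℝ := 1 / (Nat.card (Subgroup.centralizer ({σ} : Set (L ≃ₐ[ℚ] L))) : ℝ) with hc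
  have hc0 : 0 < c := by positivity
  obtain ⟨δ, hδ, h⟩ := chebotarevElementU L σ S (c / 2) (by positivity)
  obtain ⟨p, hp, hpS⟩ := exists_mem_of_lower_bound
    (fun p : Nat.Primes => p ∈ frobPrimes L {σ} ∧ (p : ℕ) ∉ S) (c / 2) δ (by positivity) hδ
    (fun s hs hs' => by
      have := h s hs hs'
      unfold frobSum at this
      have e : c - c / 2 = c / 2 := by ring
      rw [e] at this
      exact this)
  obtain ⟨-, g, hg, v, hv1, hv2, hv3⟩ := hp
  rw [Set.mem_singleton_iff] at hg
  subst hg
  exact ⟨p, v, p.2, hpS, hv1, hv2, hv3⟩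

/-- **Chebotarev, existence form, prelude language** (shape of `H87.Cheb.ChebotarevStatement`) -/
theorem chebotarevExists : Fermat.Agent.H87.Cheb.ChebotarevStatement :=
  Fermat.Agent.H79.chebotarev_of_nf chebotarevNFExists


/-- **Chebotarev, existence form, prelude language**, with the unramifiedness clause (shape of
`H62.Cheb.ChebotarevStatement`): every `σ ∈ Gal(ℚ̄/ℚ)` agrees on `K` with a Frobenius element at
a place `A` over a prime `ℓ ∉ T` whose inertia group acts trivially on `K`. -/
theorem chebotarevFull : Fermat.Agent.H62.Cheb.ChebotarevStatement := by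
  intro K _ σ T
  set K' : IntermediateField ℚ (AlgebraicClosure ℚ) :=
    IntermediateField.normalClosure ℚ K (AlgebraicClosure ℚ) with hK'
  have hQ : IsGalois ℚ (AlgebraicClosure ℚ) := Fermat.Agent.H53.isGalois_algebraicClosure_rat
  have hfin : FiniteDimensional ℚ K' :=
    normalClosure.is_finiteDimensional ℚ K (AlgebraicClosure ℚ)
  have hgal : IsGalois ℚ K' := IsGalois.normalClosure ℚ K (AlgebraicClosure ℚ)
  have hKK' : K ≤ K' := IntermediateField.le_normalClosure K
  have hG : 0 < (Nat.card (K' ≃ₐ[ℚ] K') : ℝ) := by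
    exact_mod_cast Nat.card_pos
  set c : ℝ := 1 / (Nat.card (K' ≃ₐ[ℚ] K') : ℝ) with hc
  have hc0 : 0 < c := by positivity
  obtain ⟨δ, hδ, h⟩ := chebotarevDensityU K' {AlgEquiv.restrictNormalHom K' σ} T (c / 2)
    (by positivity)
  obtain ⟨p, hp⟩ := exists_mem_of_lower_bound
    (fun p : Nat.Primes => p ∈ frobPrimesBar K' {AlgEquiv.restrictNormalHom K' σ} T) (c / 2) δ
    (by positivity) hδ
    (fun s hs hs' => by
      have := h s hs hs'
      rw [Set.ncard_singleton] at this
      have e : ((1 : ℕ) : ℝ) / (Nat.card (K' ≃ₐ[ℚ] K') : ℝ) - c / 2 = c / 2 := by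
        rw [hc]; push_cast; ring
      rw [e] at this
      exact this)
  obtain ⟨hpT, A, hA, hin, τ, hτ, hτC⟩ := hp
  refine ⟨p, p.2, hpT, A, hA, fun ι hι x hx => hin ι hι x (hKK' hx), τ, hτ, fun x hx => ?_⟩
  rw [Set.mem_singleton_iff] at hτC
  have h1 := AlgEquiv.restrictNormal_commutes τ K' ⟨x, hKK' hx⟩
  have h2 := AlgEquiv.restrictNormal_commutes σ K' ⟨x, hKK' hx⟩
  have h3 : τ.restrictNormal K' = σ.restrictNormal K' := hτC
  rw [h3] at h1
  exact h1.symm.trans h2

end Fermat.Agent.H62.Cheb2.Existence
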