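import Mathlib
import Fermat.Agent.H62.Cheb2.Interfaces

/-!
# P-CHEB phase 2, row CH2-CYC: the abstract (finite) part of the analytic argument

No number fields in this file: the functions `Q a` (`a : ZMod m`) are the degree-one prime sums
restricted to the residue classes, and all the inputs are hypotheses.
-/

set_option autoImplicit false

open Filter Topology Asymptotics
open scoped Classical

namespace Fermat.Agent.H62.Cheb2

/-- bounded in a right neighbourhood of `1` -/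
def BddNear {V : Type*} [SeminormedAddCommGroup V] (f : ℝ → V) : Prop :=
  f =O[𝓝[>] (1 : ℝ)] (fun _ : ℝ => (1 : ℝ))

theorem BddNear.of_bound {V : Type*} [SeminormedAddCommGroup V] {f : ℝ → V} (B δ : ℝ)
    (hδ : 0 < δ) (h : ∀ s : ℝ, 1 < s → s < 1 + δ → ‖f s‖ ≤ B) : BddNear f := by
  refine IsBigO.of_bound B ?_
  have : Set.Ioo (1 : ℝ) (1 + δ) ∈ 𝓝[>] (1 : ℝ) := Ioo_mem_nhdsGT (by linarith)
  filter_upwards [this] with s hs
  simpa using h s hs.1 hs.2

theorem BddNear.exists_bound {V : Type*} [SeminormedAddCommGroup V] {f : ℝ → V}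
    (h : BddNear f) : ∃ B δ : ℝ, 0 < δ ∧ ∀ s : ℝ, 1 < s → s < 1 + δ → ‖f s‖ ≤ B := by
  obtain ⟨c, hc⟩ := h.bound
  obtain ⟨u, hu, hsub⟩ := mem_nhdsGT_iff_exists_Ioo_subset.1 hc
  refine ⟨c, u - 1, by simpa using hu, fun s hs hs' => ?_⟩
  have := hsub ⟨hs, by linarith⟩
  simpa using this

theorem BddNear.add {V : Type*} [SeminormedAddCommGroup V] {f g : ℝ → V}
    (hf : BddNear f) (hg : BddNear g) : BddNear (fun s => f s + g s) :=
  IsBigO.add hf hg

theorem BddNear.sub {V : Type*} [SeminormedAddCommGroup V] {f g : ℝ → V}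
    (hf : BddNear f) (hg : BddNear g) : BddNear (fun s => f s - g s) :=
  IsBigO.sub hf hg

theorem BddNear.neg {V : Type*} [SeminormedAddCommGroup V] {f : ℝ → V}
    (hf : BddNear f) : BddNear (fun s => - f s) :=
  IsBigO.neg_left hf

theorem BddNear.const {V : Type*} [SeminormedAddCommGroup V] (c : V) :
    BddNear (fun _ : ℝ => c) :=
  BddNear.of_bound ‖c‖ 1 one_pos (fun _ _ _ => le_rfl)

theorem BddNear.sum {V : Type*} [SeminormedAddCommGroup V] {ι : Type*} (t : Finset ι)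
    {f : ι → ℝ → V} (hf : ∀ i ∈ t, BddNear (f i)) : BddNear (fun s => ∑ i ∈ t, f i s) :=
  IsBigO.fun_sum hf

theorem BddNear.const_mul {R : Type*} [NormedRing R] {f : ℝ → R} (hf : BddNear f) (c : R) :
    BddNear (fun s => c * f s) :=
  IsBigO.const_mul_left hf c

theorem BddNear.congr {V : Type*} [SeminormedAddCommGroup V] {f g : ℝ → V}
    (hf : BddNear f) (h : ∀ s : ℝ, 1 < s → f s = g s) : BddNear g := by
  obtain ⟨B, δ, hδ, hB⟩ := hf.exists_bound
  exact BddNear.of_bound B δ hδ (fun s hs hs' => by rw [← h s hs]; exact hB s hs hs')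

theorem BddNear.of_norm_le {V W : Type*} [SeminormedAddCommGroup V] [SeminormedAddCommGroup W]
    {f : ℝ → V} {g : ℝ → W} (hf : BddNear f) (h : ∀ s : ℝ, 1 < s → ‖g s‖ ≤ ‖f s‖) :
    BddNear g := by
  obtain ⟨B, δ, hδ, hB⟩ := hf.exists_bound
  exact BddNear.of_bound B δ hδ (fun s hs hs' => (h s hs).trans (hB s hs hs'))

theorem BddNear.ofReal {f : ℝ → ℝ} (hf : BddNear f) : BddNear (fun s => (f s : ℂ)) :=
  hf.of_norm_le (fun s _ => by simp)

theorem BddNear.re {f : ℝ → ℂ} (hf : BddNear f) : BddNear (fun s => (f s).re) :=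
  hf.of_norm_le (fun s _ => by simpa using Complex.abs_re_le_norm (f s))


/-! ### vanishing of the residue from a growth bound -/

theorem eq_zero_of_growth (c : ℂ) (F : ℝ → ℂ) (θ C Λ δ : ℝ) (hθ : θ < 1) (hδ : 0 < δ)
    (h1 : ∀ s : ℝ, 1 < s → s < 1 + δ → ‖F s‖ ≤ Real.exp (θ * Real.log (1 / (s - 1)) + C))
    (h2 : ∀ s : ℝ, 1 < s → s < 1 + δ → ‖F s - c / ((s : ℂ) - 1)‖ ≤ Λ) : c = 0 := by
  by_contra hc
  have hε : 0 < ‖c‖ := norm_pos_iff.2 hc
  set ε := ‖c‖ with hεdef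
  -- choice of `s`
  set X : ℝ := (C - Real.log (ε / 4)) / (1 - θ) with hX
  have h1θ : 0 < 1 - θ := by linarith
  set t : ℝ := min (min (δ / 2) (ε / (4 * (|Λ| + 1)))) (Real.exp (-X)) with ht
  have hΛ1 : 0 < 4 * (|Λ| + 1) := by positivity
  have ht0 : 0 < t := lt_min (lt_min (by linarith) (div_pos hε hΛ1)) (Real.exp_pos _)
  have htδ : t < δ := lt_of_le_of_lt ((min_le_left _ _).trans (min_le_left _ _)) (by linarith)
  have htΛ : t ≤ ε / (4 * (|Λ| + 1)) := (min_le_left _ _).trans (min_le_right _ _)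
  have htX : t ≤ Real.exp (-X) := min_le_right _ _
  have hs1 : (1 : ℝ) < 1 + t := by linarith
  have hs2 : 1 + t < 1 + δ := by linarith
  have hF := h1 (1 + t) hs1 hs2
  have hR := h2 (1 + t) hs1 hs2
  rw [add_sub_cancel_left] at hF
  have hcast : (((1 + t : ℝ) : ℂ) - 1) = (t : ℂ) := by push_cast; ring
  rw [hcast] at hR
  have htne : (t : ℂ) ≠ 0 := by exact_mod_cast ht0.ne'
  -- `c = t * F - t * (F - c / t)`
  have hceq : c = (t : ℂ) * F (1 + t) - (t : ℂ) * (F (1 + t) - c / (t : ℂ)) := by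
    field_simp
    ring
  have hnorm : ε ≤ t * ‖F (1 + t)‖ + t * Λ := by
    calc ε = ‖(t : ℂ) * F (1 + t) - (t : ℂ) * (F (1 + t) - c / (t : ℂ))‖ := by
          rw [← hceq]
      _ ≤ ‖(t : ℂ) * F (1 + t)‖ + ‖(t : ℂ) * (F (1 + t) - c / (t : ℂ))‖ := norm_sub_le _ _
      _ = t * ‖F (1 + t)‖ + t * ‖F (1 + t) - c / (t : ℂ)‖ := by
          rw [norm_mul, norm_mul, Complex.norm_real, Real.norm_of_nonneg ht0.le]
      _ ≤ t * ‖F (1 + t)‖ + t * Λ := by gcongr
  -- the logarithm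
  have hL : Real.log (1 / t) = - Real.log t := by rw [one_div, Real.log_inv]
  have hlogt : Real.log t ≤ -X := by
    calc Real.log t ≤ Real.log (Real.exp (-X)) := Real.log_le_log ht0 htX
      _ = -X := Real.log_exp _
  have hexp : t * ‖F (1 + t)‖ ≤ ε / 4 := by
    calc t * ‖F (1 + t)‖ ≤ t * Real.exp (θ * Real.log (1 / t) + C) := by gcongr
      _ = Real.exp (Real.log t) * Real.exp (θ * Real.log (1 / t) + C) := by
          rw [Real.exp_log ht0]
      _ = Real.exp ((1 - θ) * Real.log t + C) := by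
          rw [← Real.exp_add, hL]; ring_nf
      _ ≤ Real.exp ((1 - θ) * (-X) + C) := by
          apply Real.exp_le_exp.2
          have := mul_le_mul_of_nonneg_left hlogt h1θ.le
          linarith
      _ = Real.exp (Real.log (ε / 4)) := by
          congr 1
          rw [hX]
          field_simp
          ring
      _ = ε / 4 := Real.exp_log (by positivity)
  have hΛ : t * Λ ≤ ε / 4 := by
    have h1 : t * Λ ≤ t * (|Λ| + 1) := by
      apply mul_le_mul_of_nonneg_left _ ht0.le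
      have := le_abs_self Λ
      linarith
    have h2 : t * (|Λ| + 1) ≤ ε / (4 * (|Λ| + 1)) * (|Λ| + 1) := by
      apply mul_le_mul_of_nonneg_right htΛ (by positivity)
    have h3 : ε / (4 * (|Λ| + 1)) * (|Λ| + 1) = ε / 4 := by
      field_simp
    linarith
  linarith

/-! ### the finite part of the argument -/

section abstract

variable {m : ℕ} [NeZero m]

/-- the twisted sums -/
noncomputable def twSum (q : (ZMod m)ˣ → ℝ → ℝ) (χ : DirichletCharacter ℂ m) (s : ℝ) : ℂ :=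
  ∑ u : (ZMod m)ˣ, χ (u : ZMod m) * ((q u s : ℝ) : ℂ)

/-- sum over a subgroup -/
noncomputable def sgSum (q : (ZMod m)ˣ → ℝ → ℝ) (A' : Subgroup (ZMod m)ˣ) (s : ℝ) : ℝ :=
  ∑ u : (ZMod m)ˣ, if u ∈ A' then q u s else 0

theorem sum_char_mul_twSum (q : (ZMod m)ˣ → ℝ → ℝ) (v : (ZMod m)ˣ) (s : ℝ) :
    ∑ χ : DirichletCharacter ℂ m, χ ((v⁻¹ : (ZMod m)ˣ) : ZMod m) * twSum q χ s =
      (m.totient : ℂ) * (q v s : ℂ) := by
  unfold twSum
  simp_rw [Finset.mul_sum]
  rw [Finset.sum_comm]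
  have key : ∀ u : (ZMod m)ˣ, ∑ χ : DirichletCharacter ℂ m,
      χ ((v⁻¹ : (ZMod m)ˣ) : ZMod m) * (χ (u : ZMod m) * ((q u s : ℝ) : ℂ)) =
        (if v = u then (m.totient : ℂ) else 0) * (q u s : ℂ) := by
    intro u
    have h := DirichletCharacter.sum_char_inv_mul_char_eq ℂ (Units.isUnit v) (u : ZMod m)
    rw [ZMod.inv_coe_unit] at h
    simp only [← mul_assoc, ← Finset.sum_mul]
    rw [h]
    simp only [Units.val_inj]
  simp_rw [key]
  simp


theorem sgSum_bot (q : (ZMod m)ˣ → ℝ → ℝ) (s : ℝ) :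
    sgSum q (⊥ : Subgroup (ZMod m)ˣ) s = q 1 s := by
  unfold sgSum
  simp [Subgroup.mem_bot]

theorem sgSum_inv (q : (ZMod m)ˣ → ℝ → ℝ) (A : Subgroup (ZMod m)ˣ) (s : ℝ) :
    ∑ u : (ZMod m)ˣ, (if u ∈ A then q u⁻¹ s else 0) = sgSum q A s := by
  unfold sgSum
  rw [← Equiv.sum_comp (Equiv.inv (ZMod m)ˣ)]
  refine Finset.sum_congr rfl fun u _ => ?_
  simp

theorem sum_subgroup_char (χ : DirichletCharacter ℂ m) (A : Subgroup (ZMod m)ˣ) :
    ∑ u : (ZMod m)ˣ, (if u ∈ A then χ (u : ZMod m) else 0) =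
      if ∀ u ∈ A, χ ((u : (ZMod m)ˣ) : ZMod m) = 1 then (Nat.card A : ℂ) else 0 := by
  split_ifs with h
  · have : ∀ u : (ZMod m)ˣ, (if u ∈ A then χ (u : ZMod m) else 0) =
        (if u ∈ A then (1 : ℂ) else 0) := by
      intro u
      split_ifs with hu
      · exact h u hu
      · rfl
    simp_rw [this]
    rw [Finset.sum_boole, Nat.card_eq_fintype_card, Fintype.card_subtype]
  · push Not at h
    obtain ⟨u₁, hu₁, hne⟩ := h
    set S := ∑ u : (ZMod m)ˣ, (if u ∈ A then χ (u : ZMod m) else 0) with hS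
    have h1 : χ (u₁ : ZMod m) * S = S := by
      rw [hS, Finset.mul_sum]
      rw [← Equiv.sum_comp (Equiv.mulLeft u₁)
        (fun u : (ZMod m)ˣ => if u ∈ A then χ (u : ZMod m) else 0)]
      refine Finset.sum_congr rfl fun u _ => ?_
      simp only [Equiv.coe_mulLeft, Units.val_mul, map_mul]
      have : u₁ * u ∈ A ↔ u ∈ A := Subgroup.mul_mem_cancel_left A hu₁
      simp only [this]
      split_ifs <;> simp
    have h2 : (χ (u₁ : ZMod m) - 1) * S = 0 := by rw [sub_mul, h1, one_mul, sub_self]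
    rcases mul_eq_zero.1 h2 with h3 | h3
    · exact absurd (sub_eq_zero.1 h3) hne
    · exact h3

theorem exists_gap (χ : DirichletCharacter ℂ m) :
    ∃ η : ℝ, 0 < η ∧ ∀ u : (ZMod m)ˣ, χ (u : ZMod m) ≠ 1 → (χ (u : ZMod m)).re ≤ 1 - η := by
  have hlt : ∀ u : (ZMod m)ˣ, χ (u : ZMod m) ≠ 1 → (χ (u : ZMod m)).re < 1 := by
    intro u hu
    have hn : ‖χ (u : ZMod m)‖ = 1 := DirichletCharacter.unit_norm_eq_one χ u
    have hle : (χ (u : ZMod m)).re ≤ 1 := hn ▸ Complex.re_le_norm _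
    rcases lt_or_eq_of_le hle with h | h
    · exact h
    · exfalso
      apply hu
      have h0 : (χ (u : ZMod m)).re = ‖χ (u : ZMod m)‖ := by rw [h, hn]
      have h1 := Complex.re_eq_norm.1 h0
      have h2 : (χ (u : ZMod m)).im = 0 := by
        have := (Complex.nonneg_iff.1 h1).2
        exact this.symm
      exact Complex.ext (by simpa using h) (by simpa using h2)
  obtain ⟨u₀, hu₀⟩ := Finite.exists_min
    (fun u : (ZMod m)ˣ => if χ (u : ZMod m) ≠ 1 then 1 - (χ (u : ZMod m)).re else 1)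
  refine ⟨(if χ (u₀ : ZMod m) ≠ 1 then 1 - (χ (u₀ : ZMod m)).re else 1), ?_, fun u hu => ?_⟩
  · split_ifs with h
    · have := hlt u₀ h
      linarith
    · exact one_pos
  · have := hu₀ u
    rw [if_pos hu] at this
    linarith


theorem re_twSum (q : (ZMod m)ˣ → ℝ → ℝ) (χ : DirichletCharacter ℂ m) (s : ℝ) :
    (twSum q χ s).re = ∑ u : (ZMod m)ˣ, (χ (u : ZMod m)).re * q u s := by
  unfold twSum
  rw [Complex.re_sum]
  refine Finset.sum_congr rfl fun u _ => ?_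
  simp

theorem card_subgroup_pos (A : Subgroup (ZMod m)ˣ) : 0 < (Nat.card A : ℝ) := by
  exact_mod_cast Nat.card_pos

/-- Step B, first half: the real part of a twisted sum grows at most like `θ log (1/(s-1))`,
`θ < 1`, when `χ` is not trivial on `A`. -/
theorem re_twSum_le (q : (ZMod m)ˣ → ℝ → ℝ) (hq0 : ∀ u s, 1 < s → 0 ≤ q u s)
    (A : Subgroup (ZMod m)ˣ) (hqA : ∀ u, u ∉ A → BddNear (q u))
    (hS : ∀ A' : Subgroup (ZMod m)ˣ, A' ≤ A → BddNear fun s =>
      sgSum q A' s - ((Nat.card A' : ℝ) / (Nat.card A : ℝ)) * Real.log (1 / (s - 1)))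
    (χ : DirichletCharacter ℂ m) (hχ : ∃ u ∈ A, χ ((u : (ZMod m)ˣ) : ZMod m) ≠ 1) :
    ∃ θ C δ : ℝ, θ < 1 ∧ 0 < δ ∧ ∀ s : ℝ, 1 < s → s < 1 + δ →
      (twSum q χ s).re ≤ θ * Real.log (1 / (s - 1)) + C := by
  obtain ⟨η, hη, hgap⟩ := exists_gap χ
  -- the subgroup of `A` on which `χ` is trivial
  set Aχ : Subgroup (ZMod m)ˣ := A ⊓ (MulChar.toUnitHom χ).ker with hAχ
  have hmem : ∀ u : (ZMod m)ˣ, u ∈ Aχ ↔ u ∈ A ∧ χ (u : ZMod m) = 1 := by
    intro u
    rw [hAχ, Subgroup.mem_inf, MonoidHom.mem_ker, Units.ext_iff, MulChar.coe_toUnitHom]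
    rfl
  have hle : Aχ ≤ A := inf_le_left
  have hcardA := card_subgroup_pos A
  set κ : ℝ := (Nat.card Aχ : ℝ) / (Nat.card A : ℝ) with hκ
  have hκ1 : κ < 1 := by
    rw [hκ, div_lt_one hcardA]
    have hlt : Aχ < A := by
      refine lt_of_le_of_ne hle ?_
      intro heq
      obtain ⟨u, hu, hne⟩ := hχ
      rw [← heq] at hu
      exact hne ((hmem u).1 hu).2
    have h1 : (Aχ : Set (ZMod m)ˣ).ncard < (A : Set (ZMod m)ˣ).ncard :=
      Set.ncard_lt_ncard (SetLike.coe_ssubset_coe.2 hlt) (Set.toFinite _)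
    have h2 : Nat.card Aχ < Nat.card A := by
      rw [← Nat.card_coe_set_eq, ← Nat.card_coe_set_eq] at h1
      exact h1
    exact_mod_cast h2
  -- the bounded pieces
  have hb1 := hS A le_rfl
  have hb2 := hS Aχ hle
  have hb3 : BddNear (fun s => ∑ u : (ZMod m)ˣ, (if u ∈ A then (0 : ℝ) else q u s)) := by
    refine BddNear.sum _ fun u _ => ?_
    by_cases hu : u ∈ A
    · simp only [hu, if_true]
      exact BddNear.const 0
    · simp only [hu, if_false]
      exact hqA u hu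
  have hb : BddNear (fun s => (1 - η) * (sgSum q A s -
      ((Nat.card A : ℝ) / (Nat.card A : ℝ)) * Real.log (1 / (s - 1))) +
      η * (sgSum q Aχ s - κ * Real.log (1 / (s - 1))) +
      ∑ u : (ZMod m)ˣ, (if u ∈ A then (0 : ℝ) else q u s)) :=
    ((hb1.const_mul (1 - η)).add (hb2.const_mul η)).add hb3
  obtain ⟨C, δ, hδ, hC⟩ := hb.exists_bound
  refine ⟨(1 - η) + η * κ, C, δ, ?_, hδ, fun s hs hs' => ?_⟩
  · have : η * κ < η * 1 := mul_lt_mul_of_pos_left hκ1 hη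
    linarith
  · have hCs := (le_abs_self _).trans (hC s hs hs')
    rw [div_self hcardA.ne'] at hCs
    -- pointwise bound
    have hpt : ∀ u : (ZMod m)ˣ, (χ (u : ZMod m)).re * q u s ≤
        (1 - η) * (if u ∈ A then q u s else 0) + η * (if u ∈ Aχ then q u s else 0) +
          (if u ∈ A then (0 : ℝ) else q u s) := by
      intro u
      have hq := hq0 u s hs
      by_cases hu : u ∈ A
      · by_cases hχu : χ (u : ZMod m) = 1
        · have : u ∈ Aχ := (hmem u).2 ⟨hu, hχu⟩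
          simp only [hu, this, if_true, hχu, Complex.one_re]
          linarith
        · have hn : u ∉ Aχ := fun h => hχu ((hmem u).1 h).2
          simp only [hu, hn, if_true, if_false]
          have := mul_le_mul_of_nonneg_right (hgap u hχu) hq
          linarith
      · have hn : u ∉ Aχ := fun h => hu ((hmem u).1 h).1
        simp only [hu, hn, if_false]
        have h1 : (χ (u : ZMod m)).re ≤ 1 :=
          (Complex.re_le_norm _).trans (DirichletCharacter.norm_le_one χ _)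
        have := mul_le_mul_of_nonneg_right h1 hq
        linarith
    have hsum : (twSum q χ s).re ≤ (1 - η) * sgSum q A s + η * sgSum q Aχ s +
        ∑ u : (ZMod m)ˣ, (if u ∈ A then (0 : ℝ) else q u s) := by
      rw [re_twSum]
      unfold sgSum
      rw [Finset.mul_sum, Finset.mul_sum, ← Finset.sum_add_distrib, ← Finset.sum_add_distrib]
      exact Finset.sum_le_sum fun u _ => hpt u
    linarith


/-- Step B, second half: the residue vanishes. -/
theorem residue_eq_zero (q : (ZMod m)ˣ → ℝ → ℝ) (hq0 : ∀ u s, 1 < s → 0 ≤ q u s)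
    (A : Subgroup (ZMod m)ˣ) (hqA : ∀ u, u ∉ A → BddNear (q u))
    (hS : ∀ A' : Subgroup (ZMod m)ˣ, A' ≤ A → BddNear fun s =>
      sgSum q A' s - ((Nat.card A' : ℝ) / (Nat.card A : ℝ)) * Real.log (1 / (s - 1)))
    (χ : DirichletCharacter ℂ m) (hχ : ∃ u ∈ A, χ ((u : (ZMod m)ˣ) : ZMod m) ≠ 1)
    (F ℓ : ℝ → ℂ) (c : ℂ) (Λ B : ℝ)
    (hexp : ∀ s : ℝ, 1 < s → Complex.exp (ℓ s) = F s)
    (hbd : ∀ s : ℝ, 1 < s → s ≤ 2 → ‖F s - c / ((s : ℂ) - 1)‖ ≤ Λ)
    (hℓ : ∀ s : ℝ, 1 < s → s ≤ 2 → ‖ℓ s - twSum q χ s‖ ≤ B) : c = 0 := by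
  obtain ⟨θ, C, δ, hθ, hδ, hle⟩ := re_twSum_le q hq0 A hqA hS χ hχ
  refine eq_zero_of_growth c F θ (C + B) Λ (min δ 1) hθ (lt_min hδ one_pos)
    (fun s hs hs' => ?_) (fun s hs hs' => ?_)
  · have hsδ : s < 1 + δ := lt_of_lt_of_le hs' (by gcongr; exact min_le_left _ _)
    have hs2 : s ≤ 2 := by
      have : min δ 1 ≤ 1 := min_le_right _ _
      linarith
    rw [← hexp s hs, Complex.norm_exp]
    apply Real.exp_le_exp.2
    have h1 := hle s hs hsδ
    have h2 : (ℓ s - twSum q χ s).re ≤ B :=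
      (Complex.re_le_norm _).trans (hℓ s hs hs2)
    rw [Complex.sub_re] at h2
    linarith
  · have hs2 : s ≤ 2 := by
      have : min δ 1 ≤ 1 := min_le_right _ _
      linarith
    exact hbd s hs hs2

/-- the analytic data attached to a character -/
def CharData (q : (ZMod m)ˣ → ℝ → ℝ) (χ : DirichletCharacter ℂ m) : Prop :=
  ∃ (F ℓ : ℝ → ℂ) (c : ℂ) (Λ B : ℝ),
    ContinuousOn ℓ (Set.Ioi 1) ∧ (∀ s : ℝ, 1 < s → Complex.exp (ℓ s) = F s) ∧
    (∀ s : ℝ, 1 < s → s ≤ 2 → ‖F s - c / ((s : ℂ) - 1)‖ ≤ Λ) ∧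
    (∀ s s' : ℝ, 1 < s → s ≤ 2 → 1 < s' → s' ≤ 2 →
      ‖(F s - c / ((s : ℂ) - 1)) - (F s' - c / ((s' : ℂ) - 1))‖ ≤ Λ * |s - s'|) ∧
    ∀ s : ℝ, 1 < s → s ≤ 2 → ‖ℓ s - twSum q χ s‖ ≤ B

/-- upper bound for the real part of the twisted sums of the characters non-trivial on `A` -/
theorem re_twSum_le_const (q : (ZMod m)ˣ → ℝ → ℝ) (hq0 : ∀ u s, 1 < s → 0 ≤ q u s)
    (A : Subgroup (ZMod m)ˣ) (hqA : ∀ u, u ∉ A → BddNear (q u))
    (hS : ∀ A' : Subgroup (ZMod m)ˣ, A' ≤ A → BddNear fun s =>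
      sgSum q A' s - ((Nat.card A' : ℝ) / (Nat.card A : ℝ)) * Real.log (1 / (s - 1)))
    (χ : DirichletCharacter ℂ m) (hL : CharData q χ) :
    ∃ U : ℝ, (∃ u ∈ A, χ ((u : (ZMod m)ˣ) : ZMod m) ≠ 1) →
      ∀ s : ℝ, 1 < s → s ≤ 2 → (twSum q χ s).re ≤ U := by
  obtain ⟨F, ℓ, c, Λ, B, -, hexp, hbd, -, hℓ⟩ := hL
  refine ⟨Λ + B, fun hχ s hs hs2 => ?_⟩
  have hc : c = 0 := residue_eq_zero q hq0 A hqA hS χ hχ F ℓ c Λ B hexp hbd hℓ
  have h1 : ‖F s‖ ≤ Λ := by
    have := hbd s hs hs2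
    rwa [hc, zero_div, sub_zero] at this
  have h2 : (ℓ s).re ≤ Λ := by
    have h3 : Real.exp (ℓ s).re ≤ Λ := by
      rw [← Complex.norm_exp, hexp s hs]; exact h1
    have h4 : (ℓ s).re + 1 ≤ Real.exp (ℓ s).re := Real.add_one_le_exp _
    linarith
  have h5 : (twSum q χ s - ℓ s).re ≤ B := by
    refine (Complex.re_le_norm _).trans ?_
    rw [norm_sub_rev]
    exact hℓ s hs hs2
  rw [Complex.sub_re] at h5
  linarith

/-- Step C: the sum of the twisted sums over the characters non-trivial on `A` is bounded. -/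
theorem bddNear_sum_nontrivial (q : (ZMod m)ˣ → ℝ → ℝ) (A : Subgroup (ZMod m)ˣ)
    (hS : ∀ A' : Subgroup (ZMod m)ˣ, A' ≤ A → BddNear fun s =>
      sgSum q A' s - ((Nat.card A' : ℝ) / (Nat.card A : ℝ)) * Real.log (1 / (s - 1))) :
    BddNear fun s => ∑ χ : DirichletCharacter ℂ m,
      (if (∃ u ∈ A, χ ((u : (ZMod m)ˣ) : ZMod m) ≠ 1) then twSum q χ s else 0) := by
  have hcardA := card_subgroup_pos A
  have hcardne : (Nat.card A : ℂ) ≠ 0 := by exact_mod_cast hcardA.ne'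
  -- the identity
  have hid : ∀ s : ℝ, ∑ χ : DirichletCharacter ℂ m,
      (if (∃ u ∈ A, χ ((u : (ZMod m)ˣ) : ZMod m) ≠ 1) then twSum q χ s else 0) =
      (m.totient : ℂ) * (q 1 s : ℂ) -
        (m.totient : ℂ) / (Nat.card A : ℂ) * (sgSum q A s : ℂ) := by
    intro s
    have h1 : ∀ χ : DirichletCharacter ℂ m,
        (if (∃ u ∈ A, χ ((u : (ZMod m)ˣ) : ZMod m) ≠ 1) then twSum q χ s else 0) =
          χ (((1 : (ZMod m)ˣ)⁻¹ : (ZMod m)ˣ) : ZMod m) * twSum q χ s -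
            (1 / (Nat.card A : ℂ)) * ∑ u : (ZMod m)ˣ,
              (if u ∈ A then χ (((u⁻¹)⁻¹ : (ZMod m)ˣ) : ZMod m) * twSum q χ s else 0) := by
      intro χ
      have h2 : ∑ u : (ZMod m)ˣ,
          (if u ∈ A then χ (((u⁻¹)⁻¹ : (ZMod m)ˣ) : ZMod m) * twSum q χ s else 0) =
          (∑ u : (ZMod m)ˣ, (if u ∈ A then χ (u : ZMod m) else 0)) * twSum q χ s := by
        rw [Finset.sum_mul]
        refine Finset.sum_congr rfl fun u _ => ?_
        rw [inv_inv]
        split_ifs <;> simp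
      rw [h2, sum_subgroup_char]
      simp only [inv_one, Units.val_one, map_one, one_mul]
      by_cases hχ : ∃ u ∈ A, χ ((u : (ZMod m)ˣ) : ZMod m) ≠ 1
      · have hn : ¬ ∀ u ∈ A, χ ((u : (ZMod m)ˣ) : ZMod m) = 1 := by
          push Not
          exact hχ
        rw [if_pos hχ, if_neg hn]
        ring
      · have hn : ∀ u ∈ A, χ ((u : (ZMod m)ˣ) : ZMod m) = 1 := by
          push Not at hχ
          exact hχ
        rw [if_neg hχ, if_pos hn]
        field_simp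
        ring
    simp_rw [h1]
    rw [Finset.sum_sub_distrib, sum_char_mul_twSum, ← Finset.mul_sum, Finset.sum_comm]
    have h3 : ∀ u : (ZMod m)ˣ, ∑ χ : DirichletCharacter ℂ m,
        (if u ∈ A then χ (((u⁻¹)⁻¹ : (ZMod m)ˣ) : ZMod m) * twSum q χ s else 0) =
          (if u ∈ A then (m.totient : ℂ) * (q u⁻¹ s : ℂ) else 0) := by
      intro u
      split_ifs with hu
      · exact sum_char_mul_twSum q u⁻¹ s
      · simp
    simp_rw [h3]
    have h4 : ∑ u : (ZMod m)ˣ, (if u ∈ A then (m.totient : ℂ) * (q u⁻¹ s : ℂ) else 0) =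
        (m.totient : ℂ) * (sgSum q A s : ℂ) := by
      rw [← sgSum_inv]
      push_cast
      rw [Finset.mul_sum]
      refine Finset.sum_congr rfl fun u _ => ?_
      split_ifs <;> simp
    rw [h4]
    ring
  -- boundedness
  have hb1 := (hS ⊥ bot_le).ofReal
  have hb2 := (hS A le_rfl).ofReal
  have hb : BddNear (fun s => (m.totient : ℂ) *
      ((sgSum q ⊥ s - ((Nat.card (⊥ : Subgroup (ZMod m)ˣ) : ℝ) / (Nat.card A : ℝ)) *
          Real.log (1 / (s - 1)) : ℝ) : ℂ) -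
      (m.totient : ℂ) / (Nat.card A : ℂ) *
        ((sgSum q A s - ((Nat.card A : ℝ) / (Nat.card A : ℝ)) *
          Real.log (1 / (s - 1)) : ℝ) : ℂ)) :=
    (hb1.const_mul _).sub (hb2.const_mul _)
  refine hb.congr fun s hs => ?_
  rw [hid, sgSum_bot, Subgroup.card_bot, div_self hcardA.ne']
  push_cast
  field_simp
  ring


/-- Steps C and D: the twisted sum of a character non-trivial on `A` is bounded near `1`. -/
theorem bddNear_twSum (h3 : LogLiftBoundedStatement)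
    (q : (ZMod m)ˣ → ℝ → ℝ) (hq0 : ∀ u s, 1 < s → 0 ≤ q u s)
    (A : Subgroup (ZMod m)ˣ) (hqA : ∀ u, u ∉ A → BddNear (q u))
    (hS : ∀ A' : Subgroup (ZMod m)ˣ, A' ≤ A → BddNear fun s =>
      sgSum q A' s - ((Nat.card A' : ℝ) / (Nat.card A : ℝ)) * Real.log (1 / (s - 1)))
    (hL : ∀ χ : DirichletCharacter ℂ m, CharData q χ)
    (χ : DirichletCharacter ℂ m) (hχ : ∃ u ∈ A, χ ((u : (ZMod m)ˣ) : ZMod m) ≠ 1) :
    BddNear (twSum q χ) := by
  -- upper bounds
  have hup := fun χ' : DirichletCharacter ℂ m => re_twSum_le_const q hq0 A hqA hS χ' (hL χ')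
  choose U hU using hup
  -- the sum over the non-trivial characters
  obtain ⟨BT, δT, hδT, hT⟩ := (bddNear_sum_nontrivial q A hS).exists_bound
  -- lower bound for `χ`
  set C₁ : ℝ := BT + ∑ χ' ∈ (Finset.univ : Finset (DirichletCharacter ℂ m)).erase χ,
    max (U χ') 0 with hC₁
  have hlow : ∀ s : ℝ, 1 < s → s < 1 + δT → s ≤ 2 → -C₁ ≤ (twSum q χ s).re := by
    intro s hs hs' hs2
    have h1 := hT s hs hs'
    have h2 : |(∑ χ' : DirichletCharacter ℂ m,
        (if (∃ u ∈ A, χ' ((u : (ZMod m)ˣ) : ZMod m) ≠ 1) then twSum q χ' s else 0)).re| ≤ BT :=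
      (Complex.abs_re_le_norm _).trans h1
    rw [Complex.re_sum, ← Finset.add_sum_erase _ _ (Finset.mem_univ χ), if_pos hχ] at h2
    have h3 : ∑ χ' ∈ (Finset.univ : Finset (DirichletCharacter ℂ m)).erase χ,
        (if (∃ u ∈ A, χ' ((u : (ZMod m)ˣ) : ZMod m) ≠ 1) then twSum q χ' s else 0).re ≤
        ∑ χ' ∈ (Finset.univ : Finset (DirichletCharacter ℂ m)).erase χ, max (U χ') 0 := by
      refine Finset.sum_le_sum fun χ' _ => ?_
      split_ifs with hχ'
      · exact (hU χ' hχ' s hs hs2).trans (le_max_left _ _)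
      · simp
    have h4 := (abs_le.1 h2).1
    linarith
  -- the data of `χ`
  obtain ⟨F, ℓ, c, Λ, B, hcont, hexp, hbd, hlip, hℓ⟩ := hL χ
  have hc : c = 0 := residue_eq_zero q hq0 A hqA hS χ hχ F ℓ c Λ B hexp hbd hℓ
  subst hc
  set δ' : ℝ := min (δT / 2) 1 with hδ'
  have hδ'0 : 0 < δ' := lt_min (by linarith) one_pos
  have hδ'1 : δ' ≤ 1 := min_le_right _ _
  have hδ'2 : δ' < δT := lt_of_le_of_lt (min_le_left _ _) (by linarith)
  obtain ⟨B', hB'⟩ := h3 F ℓ δ' (Real.exp (-C₁ - B)) Λ hδ'0 (Real.exp_pos _)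
    (hcont.mono (fun s hs => hs.1))
    (fun s hs => hexp s hs.1)
    (fun s hs => by
      rw [← hexp s hs.1, Complex.norm_exp]
      apply Real.exp_le_exp.2
      have h1 := hlow s hs.1 (by linarith [hs.2]) (by linarith [hs.2])
      have h2 : (twSum q χ s - ℓ s).re ≤ B := by
        refine (Complex.re_le_norm _).trans ?_
        rw [norm_sub_rev]
        exact hℓ s hs.1 (by linarith [hs.2])
      rw [Complex.sub_re] at h2
      linarith)
    (fun s hs s' hs' => by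
      have := hlip s s' hs.1 (by linarith [hs.2]) hs'.1 (by linarith [hs'.2])
      simpa using this)
  refine BddNear.of_bound (B' + B) δ' hδ'0 fun s hs hs' => ?_
  have h1 := hB' s ⟨hs, hs'.le⟩
  have h2 := hℓ s hs (by linarith)
  calc ‖twSum q χ s‖ = ‖ℓ s - (ℓ s - twSum q χ s)‖ := by rw [sub_sub_cancel]
    _ ≤ ‖ℓ s‖ + ‖ℓ s - twSum q χ s‖ := norm_sub_le _ _
    _ ≤ B' + B := add_le_add h1 h2

/-- **The abstract density lemma.** -/
theorem abstractDensity (h3 : LogLiftBoundedStatement)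
    (q : (ZMod m)ˣ → ℝ → ℝ) (hq0 : ∀ u s, 1 < s → 0 ≤ q u s)
    (A : Subgroup (ZMod m)ˣ) (hqA : ∀ u, u ∉ A → BddNear (q u))
    (hS : ∀ A' : Subgroup (ZMod m)ˣ, A' ≤ A → BddNear fun s =>
      sgSum q A' s - ((Nat.card A' : ℝ) / (Nat.card A : ℝ)) * Real.log (1 / (s - 1)))
    (hL : ∀ χ : DirichletCharacter ℂ m, CharData q χ)
    (a₀ : (ZMod m)ˣ) (ha₀ : a₀ ∈ A) :
    BddNear fun s => q a₀ s - (1 / (Nat.card A : ℝ)) * Real.log (1 / (s - 1)) := by
  have hφ : 0 < m.totient := Nat.totient_pos.2 (NeZero.pos m)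
  -- `φ(m) (q 1 - q a₀)` as a sum over the characters
  have hid : ∀ s : ℝ, ∑ χ : DirichletCharacter ℂ m,
      (χ (((1 : (ZMod m)ˣ)⁻¹ : (ZMod m)ˣ) : ZMod m) - χ ((a₀⁻¹ : (ZMod m)ˣ) : ZMod m)) *
        twSum q χ s = (m.totient : ℂ) * ((q 1 s - q a₀ s : ℝ) : ℂ) := by
    intro s
    simp_rw [sub_mul]
    rw [Finset.sum_sub_distrib, sum_char_mul_twSum, sum_char_mul_twSum]
    push_cast
    ring
  have hb : BddNear fun s => ∑ χ : DirichletCharacter ℂ m,
      (χ (((1 : (ZMod m)ˣ)⁻¹ : (ZMod m)ˣ) : ZMod m) - χ ((a₀⁻¹ : (ZMod m)ˣ) : ZMod m)) *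
        twSum q χ s := by
    refine BddNear.sum _ fun χ _ => ?_
    by_cases hχ : ∃ u ∈ A, χ ((u : (ZMod m)ˣ) : ZMod m) ≠ 1
    · exact (bddNear_twSum h3 q hq0 A hqA hS hL χ hχ).const_mul _
    · push Not at hχ
      have h1 : χ ((a₀⁻¹ : (ZMod m)ˣ) : ZMod m) = 1 := hχ _ (A.inv_mem ha₀)
      have h2 : χ (((1 : (ZMod m)ˣ)⁻¹ : (ZMod m)ˣ) : ZMod m) = 1 := hχ _ (A.inv_mem A.one_mem)
      simp only [h1, h2, sub_self, zero_mul]
      exact BddNear.const 0
  have hb' : BddNear fun s => q 1 s - q a₀ s := by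
    refine hb.of_norm_le fun s _ => ?_
    rw [hid, norm_mul, Complex.norm_real, Complex.norm_natCast]
    have h1 : (1 : ℝ) ≤ (m.totient : ℝ) := by exact_mod_cast hφ
    calc ‖q 1 s - q a₀ s‖ = 1 * ‖q 1 s - q a₀ s‖ := (one_mul _).symm
      _ ≤ (m.totient : ℝ) * ‖q 1 s - q a₀ s‖ := by gcongr
  have hb1 := hS ⊥ bot_le
  refine (hb1.sub hb').congr fun s _ => ?_
  rw [sgSum_bot, Subgroup.card_bot]
  push_cast
  ring

end abstract

end Fermat.Agent.H62.Cheb2
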