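import Mathlib
import Fermat.Agent.H62.Cheb2.CycAbstract
import Fermat.Agent.H62.Cheb.DegOne
import Fermat.Agent.H62.Cheb.GlueNF

/-!
# P-CHEB phase 2, row CH2-CYC: degree-one primes in the classes mod `m`

`cycloDensity : CycloDensityStatement` from the five analytic/algebraic inputs
(`IdealCharSumStatement`, `AbelBoundedStatement`, `LogLiftBoundedStatement`, `EulerLogStatement`,
`SplitCountStatement`) and the landed `degOneAsymptotic`.
-/

set_option autoImplicit false

open NumberField Ideal IsDedekindDomain Filter Topology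
open scoped Pointwise Classical

namespace Fermat.Agent.H62.Cheb2

open Fermat.Agent.H62.Cheb

/-! ### complex prime series -/

/-- complex prime series `∑_p c(p) p^(-s)` -/
noncomputable def cps (c : Nat.Primes → ℂ) (s : ℝ) : ℂ :=
  ∑' p : Nat.Primes, c p * ((((p : ℕ) : ℝ) ^ (-s) : ℝ) : ℂ)

/-- absolute convergence for `s > 1` -/
def CSummable (c : Nat.Primes → ℂ) : Prop :=
  ∀ s : ℝ, 1 < s → Summable fun p : Nat.Primes => c p * ((((p : ℕ) : ℝ) ^ (-s) : ℝ) : ℂ)

theorem CSummable.of_le {c : Nat.Primes → ℂ} {w : Nat.Primes → ℝ}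
    (hw : ∀ s : ℝ, 1 < s → Summable fun p : Nat.Primes => w p * ((p : ℕ) : ℝ) ^ (-s))
    (h : ∀ p, ‖c p‖ ≤ w p) : CSummable c := by
  intro s hs
  refine Summable.of_norm_bounded (hw s hs) (fun p => ?_)
  have h0 : (0 : ℝ) ≤ ((p : ℕ) : ℝ) ^ (-s) := Real.rpow_nonneg (Nat.cast_nonneg _) _
  rw [norm_mul, Complex.norm_real, Real.norm_of_nonneg h0]
  exact mul_le_mul_of_nonneg_right (h p) h0

theorem cps_sum {ι : Type*} (t : Finset ι) (c : ι → Nat.Primes → ℂ)
    (hc : ∀ i ∈ t, CSummable (c i)) {s : ℝ} (hs : 1 < s) :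
    cps (fun p => ∑ i ∈ t, c i p) s = ∑ i ∈ t, cps (c i) s := by
  unfold cps
  rw [← Summable.tsum_finsetSum (fun i hi => hc i hi s hs)]
  refine tsum_congr fun p => ?_
  rw [Finset.sum_mul]

theorem cps_const_mul (k : ℂ) (c : Nat.Primes → ℂ) (s : ℝ) :
    cps (fun p => k * c p) s = k * cps c s := by
  unfold cps
  simp_rw [mul_assoc]
  rw [tsum_mul_left]

theorem cps_sub_le {c c' : Nat.Primes → ℂ} (hc : CSummable c) (hc' : CSummable c')
    (Bad : Finset Nat.Primes) (h : ∀ p, p ∉ Bad → c p = c' p) {s : ℝ} (hs : 1 < s) :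
    ‖cps c s - cps c' s‖ ≤ ∑ p ∈ Bad, ‖c p - c' p‖ := by
  unfold cps
  rw [← (hc s hs).tsum_sub (hc' s hs)]
  rw [tsum_eq_sum (s := Bad) (fun p hp => by rw [h p hp, sub_self])]
  refine (norm_sum_le _ _).trans (Finset.sum_le_sum fun p _ => ?_)
  have h0 : (0 : ℝ) ≤ ((p : ℕ) : ℝ) ^ (-s) := Real.rpow_nonneg (Nat.cast_nonneg _) _
  have h1 : ((p : ℕ) : ℝ) ^ (-s) ≤ 1 := by
    apply Real.rpow_le_one_of_one_le_of_nonpos
    · exact_mod_cast p.2.one_le
    · linarith
  rw [← sub_mul, norm_mul, Complex.norm_real, Real.norm_of_nonneg h0]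
  exact mul_le_of_le_one_right (norm_nonneg _) h1

/-! ### the prime sums of a number field as complex prime series -/

section nf

variable (F : Type) [Field F] [NumberField F]

theorem primeCount_summable (s : ℝ) (hs : 1 < s) :
    Summable fun p : Nat.Primes => (primeCount F p : ℝ) * ((p : ℕ) : ℝ) ^ (-s) :=
  (degOneAsymptotic F).1 s hs

theorem csummable_of_le_primeCount {c : Nat.Primes → ℂ} (M : ℝ)
    (h : ∀ p, ‖c p‖ ≤ M * (primeCount F p : ℝ)) : CSummable c := by
  refine CSummable.of_le (w := fun p => M * (primeCount F p : ℝ)) (fun s hs => ?_) h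
  have := (primeCount_summable F s hs).mul_left M
  refine this.congr fun p => ?_
  ring

theorem degOneSum_cast (s : ℝ) :
    ((degOneSum F s : ℝ) : ℂ) = cps (fun p => (primeCount F p : ℂ)) s := by
  unfold degOneSum cps
  rw [Complex.ofReal_tsum]
  refine tsum_congr fun p => ?_
  push_cast
  rfl

theorem classDegOneSum_cast (m : ℕ) (a : ZMod m) (s : ℝ) :
    ((classDegOneSum F m a s : ℝ) : ℂ) =
      cps (fun p => if (((p : ℕ) : ZMod m) = a) then (primeCount F p : ℂ) else 0) s := by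
  unfold classDegOneSum cps
  rw [Complex.ofReal_tsum]
  refine tsum_congr fun p => ?_
  by_cases h : ((p : ℕ) : ZMod m) = a
  · simp only [if_pos h]
    push_cast
    rfl
  · simp only [if_neg h]
    simp

theorem classDegOneSum_nonneg (m : ℕ) (a : ZMod m) (s : ℝ) :
    0 ≤ classDegOneSum F m a s := by
  unfold classDegOneSum
  refine tsum_nonneg fun p => ?_
  split_ifs
  · exact mul_nonneg (Nat.cast_nonneg _) (Real.rpow_nonneg (Nat.cast_nonneg _) _)
  · exact le_rfl

theorem charDegOneSum_eq (m : ℕ) (χ : DirichletCharacter ℂ m) (s : ℝ) :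
    charDegOneSum F m χ s = cps (fun p => χ ((p : ℕ) : ZMod m) * (primeCount F p : ℂ)) s := rfl

end nf

/-! ### the cyclotomic character -/

section cyc

variable {K : Type} [Field K] [NumberField K] {m : ℕ} [NeZero m] {ζ : K}

/-- the cyclotomic character attached to the primitive root `ζ` -/
noncomputable def cycChar (hζ : IsPrimitiveRoot ζ m) : (K ≃ₐ[ℚ] K) →* (ZMod m)ˣ :=
  hζ.autToPow ℚ

theorem cycChar_spec (hζ : IsPrimitiveRoot ζ m) (g : K ≃ₐ[ℚ] K) :
    ζ ^ ((cycChar hζ g : (ZMod m)ˣ) : ZMod m).val = g ζ :=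
  hζ.autToPow_spec ℚ g

theorem pow_eq_pow_iff_cast (hζ : IsPrimitiveRoot ζ m) (i j : ℕ) :
    ζ ^ i = ζ ^ j ↔ (i : ZMod m) = (j : ZMod m) := by
  have hfin : IsOfFinOrder ζ :=
    isOfFinOrder_iff_pow_eq_one.2 ⟨m, NeZero.pos m, hζ.pow_eq_one⟩
  rw [hfin.pow_eq_pow_iff_modEq, ← hζ.eq_orderOf, ZMod.natCast_eq_natCast_iff]

theorem cycChar_eq_iff_pow (hζ : IsPrimitiveRoot ζ m) (g : K ≃ₐ[ℚ] K) (n : ℕ) :
    g ζ = ζ ^ n ↔ ((cycChar hζ g : (ZMod m)ˣ) : ZMod m) = (n : ZMod m) := by
  rw [← cycChar_spec hζ g, pow_eq_pow_iff_cast hζ, ZMod.natCast_zmod_val]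

theorem cycChar_eq_of_pow_val (hζ : IsPrimitiveRoot ζ m) (g : K ≃ₐ[ℚ] K) (a : ZMod m)
    (h : g ζ = ζ ^ a.val) : ((cycChar hζ g : (ZMod m)ˣ) : ZMod m) = a := by
  rw [(cycChar_eq_iff_pow hζ g a.val).1 h, ZMod.natCast_zmod_val]

theorem cycChar_eq_one_iff (hζ : IsPrimitiveRoot ζ m) (g : K ≃ₐ[ℚ] K) :
    cycChar hζ g = 1 ↔ g ζ = ζ := by
  have h := cycChar_eq_iff_pow hζ g 1
  rw [pow_one, Nat.cast_one] at h
  rw [h, Units.ext_iff, Units.val_one]

theorem card_map_of_faithful {G H : Type*} [Group G] [Group H] (f : G →* H) (D : Subgroup G)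
    (hD : ∀ g ∈ D, f g = 1 → g = 1) : Nat.card (D.map f) = Nat.card D := by
  have hinj : Function.Injective (f.comp D.subtype) := by
    rw [injective_iff_map_eq_one]
    intro g hg
    exact Subtype.ext (hD g g.2 hg)
  have h1 : Nat.card D = Nat.card (f.comp D.subtype).range :=
    Nat.card_congr (MonoidHom.ofInjective hinj).toEquiv
  rw [h1, MonoidHom.range_comp, Subgroup.range_subtype]

end cyc

/-! ### pointwise identities -/

section pointwise

variable {m : ℕ} [NeZero m]

theorem sum_units_mul_ite (y : ZMod m) (g : (ZMod m)ˣ → ℂ) (x : ℂ) :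
    ∑ u : (ZMod m)ˣ, g u * (if y = (u : ZMod m) then x else 0) =
      (if h : IsUnit y then g h.unit else 0) * x := by
  by_cases h : IsUnit y
  · rw [dif_pos h]
    have h1 : ∀ u : (ZMod m)ˣ, g u * (if y = (u : ZMod m) then x else 0) =
        if h.unit = u then g u * x else 0 := by
      intro u
      have : y = (u : ZMod m) ↔ h.unit = u := by
        rw [Units.ext_iff, IsUnit.unit_spec]
      simp only [this]
      split_ifs <;> simp
    simp_rw [h1]
    rw [Finset.sum_ite_eq]
    simp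
  · rw [dif_neg h, zero_mul]
    refine Finset.sum_eq_zero fun u _ => ?_
    have : ¬ y = (u : ZMod m) := fun hy => h (hy ▸ u.isUnit)
    rw [if_neg this, mul_zero]

end pointwise

/-! ### the main argument -/

section main

variable (K : Type) [Field K] [NumberField K] [IsGalois ℚ K] (m : ℕ) [NeZero m]

/-- the bad primes: those dividing `m` or ramified in `K` -/
noncomputable def badPrimes : Finset Nat.Primes :=
  (finite_primes_dvd (n := (m : ℤ) * NumberField.discr K)
    (mul_ne_zero (by exact_mod_cast (NeZero.ne m)) (NumberField.discr_ne_zero K))).toFinset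

theorem good_of_not_mem_badPrimes {p : Nat.Primes} (hp : p ∉ badPrimes K m) :
    ¬ ((p : ℕ) ∣ m) ∧ ¬ (((p : ℕ) : ℤ) ∣ NumberField.discr K) := by
  unfold badPrimes at hp
  rw [Set.Finite.mem_toFinset, Set.mem_ofPred_eq] at hp
  constructor
  · intro h
    exact hp (Dvd.dvd.mul_right (Int.natCast_dvd_natCast.2 h) _)
  · intro h
    exact hp (Dvd.dvd.mul_left h _)

variable {K m} {ζ : K} (hζ : IsPrimitiveRoot ζ m) (D : Subgroup (K ≃ₐ[ℚ] K))

/-- the functions `Q_u` of the abstract argument -/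
noncomputable def classFun (u : (ZMod m)ˣ) (s : ℝ) : ℝ :=
  classDegOneSum (IntermediateField.fixedField D) m (u : ZMod m) s

theorem classFun_cast (u : (ZMod m)ˣ) (s : ℝ) :
    ((classFun D u s : ℝ) : ℂ) = cps (fun p => if (((p : ℕ) : ZMod m) = (u : ZMod m)) then
      (primeCount (IntermediateField.fixedField D) p : ℂ) else 0) s :=
  classDegOneSum_cast _ m _ s

theorem csummable_ite (u : (ZMod m)ˣ) :
    CSummable (fun p : Nat.Primes => if (((p : ℕ) : ZMod m) = (u : ZMod m)) then
      (primeCount (IntermediateField.fixedField D) p : ℂ) else 0) := by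
  refine csummable_of_le_primeCount (IntermediateField.fixedField D) 1 fun p => ?_
  split_ifs
  · simp
  · simp

/-- a weighted sum of the `Q_u` as a prime series -/
theorem sum_mul_classFun (g : (ZMod m)ˣ → ℂ) {s : ℝ} (hs : 1 < s) :
    ∑ u : (ZMod m)ˣ, g u * ((classFun D u s : ℝ) : ℂ) =
      cps (fun p => (if h : IsUnit (((p : ℕ) : ZMod m)) then g h.unit else 0) *
        (primeCount (IntermediateField.fixedField D) p : ℂ)) s := by
  simp_rw [classFun_cast, ← cps_const_mul]
  rw [← cps_sum _ _ _ hs]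
  · congr 1
    funext p
    exact sum_units_mul_ite _ g _
  · intro u _
    refine csummable_of_le_primeCount (IntermediateField.fixedField D) ‖g u‖ fun p => ?_
    rw [norm_mul]
    gcongr
    split_ifs
    · simp
    · simp

theorem twSum_classFun (χ : DirichletCharacter ℂ m) {s : ℝ} (hs : 1 < s) :
    twSum (classFun D) χ s = charDegOneSum (IntermediateField.fixedField D) m χ s := by
  unfold twSum
  rw [sum_mul_classFun D (fun u : (ZMod m)ˣ => χ (u : ZMod m)) hs, charDegOneSum_eq]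
  congr 1
  funext p
  congr 1
  by_cases h : IsUnit (((p : ℕ) : ZMod m))
  · rw [dif_pos h, IsUnit.unit_spec]
  · rw [dif_neg h, MulChar.map_nonunit χ h]

end main

section main2

variable {K : Type} [Field K] [NumberField K] [IsGalois ℚ K] {m : ℕ} [NeZero m] {ζ : K}

theorem faithful_cycChar (hζ : IsPrimitiveRoot ζ m) (D : Subgroup (K ≃ₐ[ℚ] K))
    (hD : ∀ g ∈ D, g ζ = ζ → g = 1) : ∀ g ∈ D, cycChar hζ g = 1 → g = 1 :=
  fun g hg h1 => hD g hg ((cycChar_eq_one_iff hζ g).1 h1)

theorem card_map_cycChar (hζ : IsPrimitiveRoot ζ m) (D : Subgroup (K ≃ₐ[ℚ] K))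
    (hD : ∀ g ∈ D, g ζ = ζ → g = 1) : Nat.card (D.map (cycChar hζ)) = Nat.card D :=
  card_map_of_faithful _ D (faithful_cycChar hζ D hD)

/-- the key consequence of `SplitCountStatement` at a good prime -/
theorem split_key (h5 : SplitCountStatement) (hζ : IsPrimitiveRoot ζ m)
    (D : Subgroup (K ≃ₐ[ℚ] K)) (hD : ∀ g ∈ D, g ζ = ζ → g = 1)
    (A' : Subgroup (ZMod m)ˣ) (hA' : A' ≤ D.map (cycChar hζ)) (p : Nat.Primes)
    (hp : p ∉ badPrimes K m) :
    (if h : IsUnit (((p : ℕ) : ZMod m)) then (if h.unit ∈ A' then (1 : ℂ) else 0) else 0) *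
        (primeCount (IntermediateField.fixedField D) p : ℂ) =
      ((Nat.card A' : ℂ) / (Nat.card (D.map (cycChar hζ)) : ℂ)) *
        (primeCount (IntermediateField.fixedField (D ⊓ A'.comap (cycChar hζ))) p : ℂ) := by
  set D' : Subgroup (K ≃ₐ[ℚ] K) := D ⊓ A'.comap (cycChar hζ) with hD'
  have hD'le : D' ≤ D := inf_le_left
  obtain ⟨hpm, hpd⟩ := good_of_not_mem_badPrimes K m hp
  have key := h5 K m ζ hζ D hD D' hD'le p p.2 hpm hpd
  have hcD : Nat.card (D.map (cycChar hζ)) = Nat.card D := card_map_cycChar hζ D hD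
  have hmap : D'.map (cycChar hζ) = A' := by
    ext u
    constructor
    · rintro ⟨g, hg, rfl⟩
      exact hg.2
    · intro hu
      obtain ⟨g, hg, rfl⟩ := hA' hu
      exact ⟨g, ⟨hg, hu⟩, rfl⟩
  have hcD' : Nat.card A' = Nat.card D' := by
    rw [← hmap]
    exact card_map_of_faithful _ D' (fun g hg h1 => faithful_cycChar hζ D hD g (hD'le hg) h1)
  have hposD : (Nat.card D : ℂ) ≠ 0 := by
    exact_mod_cast (Nat.card_pos (α := D)).ne'
  have hposD' : 0 < Nat.card D' := Nat.card_pos
  have hcond : (∃ g ∈ D', g ζ = ζ ^ (p : ℕ)) ↔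
      ∃ h : IsUnit (((p : ℕ) : ZMod m)), h.unit ∈ A' := by
    constructor
    · rintro ⟨g, hg, hgp⟩
      have h1 := (cycChar_eq_iff_pow hζ g p).1 hgp
      have hu : IsUnit (((p : ℕ) : ZMod m)) := h1 ▸ (cycChar hζ g).isUnit
      refine ⟨hu, ?_⟩
      have : hu.unit = cycChar hζ g := by
        rw [Units.ext_iff, IsUnit.unit_spec, h1]
      rw [this]
      exact hg.2
    · rintro ⟨hu, hmem⟩
      obtain ⟨g, hg, hgu⟩ := hA' hmem
      refine ⟨g, ⟨hg, ?_⟩, ?_⟩
      · show cycChar hζ g ∈ A'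
        rw [hgu]; exact hmem
      · rw [cycChar_eq_iff_pow hζ g p, hgu, IsUnit.unit_spec]
  rw [hcD, hcD']
  by_cases hc : ∃ g ∈ D', g ζ = ζ ^ (p : ℕ)
  · rw [if_pos hc] at key
    obtain ⟨hu, hmem⟩ := hcond.1 hc
    rw [dif_pos hu, if_pos hmem, one_mul]
    have keyC : (Nat.card D' : ℂ) * (primeCount (IntermediateField.fixedField D') p : ℂ) =
        (Nat.card D : ℂ) * (primeCount (IntermediateField.fixedField D) p : ℂ) := by
      exact_mod_cast key
    field_simp
    rw [mul_comm]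
    exact keyC.symm
  · rw [if_neg hc] at key
    have h0 : primeCount (IntermediateField.fixedField D') p = 0 := by
      rcases Nat.mul_eq_zero.1 key with h | h
      · exact absurd h hposD'.ne'
      · exact h
    have hl : (if h : IsUnit (((p : ℕ) : ZMod m)) then (if h.unit ∈ A' then (1 : ℂ) else 0)
        else 0) = 0 := by
      by_cases hu : IsUnit (((p : ℕ) : ZMod m))
      · rw [dif_pos hu]
        by_cases hmem : hu.unit ∈ A'
        · exact absurd (hcond.2 ⟨hu, hmem⟩) hc
        · rw [if_neg hmem]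
      · rw [dif_neg hu]
    rw [hl, h0]
    simp


theorem cps_zero (s : ℝ) : cps (fun _ => 0) s = 0 := by
  unfold cps
  simp

/-- the classes outside the image of `D` only contain bad primes -/
theorem bddNear_classFun_of_not_mem (h5 : SplitCountStatement) (hζ : IsPrimitiveRoot ζ m)
    (D : Subgroup (K ≃ₐ[ℚ] K)) (hD : ∀ g ∈ D, g ζ = ζ → g = 1)
    (u : (ZMod m)ˣ) (hu : u ∉ D.map (cycChar hζ)) : BddNear (classFun D u) := by
  set c : Nat.Primes → ℂ := fun p => if (((p : ℕ) : ZMod m) = (u : ZMod m)) then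
      (primeCount (IntermediateField.fixedField D) p : ℂ) else 0 with hc
  have hc0 : ∀ p, p ∉ badPrimes K m → c p = (fun _ => (0 : ℂ)) p := by
    intro p hp
    simp only [hc]
    by_cases hpu : ((p : ℕ) : ZMod m) = (u : ZMod m)
    · rw [if_pos hpu]
      obtain ⟨hpm, hpd⟩ := good_of_not_mem_badPrimes K m hp
      have key := h5 K m ζ hζ D hD D le_rfl p p.2 hpm hpd
      have hn : ¬ ∃ g ∈ D, g ζ = ζ ^ (p : ℕ) := by
        rintro ⟨g, hg, hgp⟩
        apply hu
        refine ⟨g, hg, ?_⟩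
        rw [Units.ext_iff, (cycChar_eq_iff_pow hζ g p).1 hgp, hpu]
      rw [if_neg hn] at key
      have hposD : 0 < Nat.card D := Nat.card_pos
      rcases Nat.mul_eq_zero.1 key with h | h
      · exact absurd h hposD.ne'
      · rw [h]; simp
    · rw [if_neg hpu]
  have hs0 : CSummable (fun _ : Nat.Primes => (0 : ℂ)) := by
    intro s _
    simp
  refine BddNear.of_bound (∑ p ∈ badPrimes K m, ‖c p - (fun _ => (0 : ℂ)) p‖) 1 one_pos
    fun s hs _ => ?_
  have h1 := cps_sub_le (csummable_ite D u) hs0 (badPrimes K m) hc0 hs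
  rw [cps_zero, sub_zero, ← classFun_cast] at h1
  rwa [Complex.norm_real] at h1

/-- the sum of the `Q_u` over a subgroup of the image of `D` -/
theorem bddNear_sgSum (h5 : SplitCountStatement) (hζ : IsPrimitiveRoot ζ m)
    (D : Subgroup (K ≃ₐ[ℚ] K)) (hD : ∀ g ∈ D, g ζ = ζ → g = 1)
    (A' : Subgroup (ZMod m)ˣ) (hA' : A' ≤ D.map (cycChar hζ)) :
    BddNear fun s => sgSum (classFun D) A' s -
      ((Nat.card A' : ℝ) / (Nat.card (D.map (cycChar hζ)) : ℝ)) * Real.log (1 / (s - 1)) := by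
  obtain ⟨B, δ, hδ, hB⟩ :=
    (degOneAsymptotic (IntermediateField.fixedField (D ⊓ A'.comap (cycChar hζ)))).2
  set κ : ℝ := (Nat.card A' : ℝ) / (Nat.card (D.map (cycChar hζ)) : ℝ) with hκ
  set c : Nat.Primes → ℂ := fun p =>
    (if h : IsUnit (((p : ℕ) : ZMod m)) then (if h.unit ∈ A' then (1 : ℂ) else 0) else 0) *
        (primeCount (IntermediateField.fixedField D) p : ℂ) with hc
  set c' : Nat.Primes → ℂ := fun p => (κ : ℂ) *
    (primeCount (IntermediateField.fixedField (D ⊓ A'.comap (cycChar hζ))) p : ℂ) with hc'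
  have hcc' : ∀ p, p ∉ badPrimes K m → c p = c' p := by
    intro p hp
    simp only [hc, hc', hκ]
    rw [split_key h5 hζ D hD A' hA' p hp]
    push_cast
    rfl
  have hsc : CSummable c := by
    refine csummable_of_le_primeCount (IntermediateField.fixedField D) 1 fun p => ?_
    simp only [hc]
    rw [norm_mul]
    gcongr
    · split_ifs <;> simp
    · simp
  have hsc' : CSummable c' := by
    refine csummable_of_le_primeCount
      (IntermediateField.fixedField (D ⊓ A'.comap (cycChar hζ))) ‖(κ : ℂ)‖ fun p => ?_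
    simp only [hc']
    rw [norm_mul]
    gcongr
    simp
  refine BddNear.of_bound ((∑ p ∈ badPrimes K m, ‖c p - c' p‖) + |κ| * B) δ hδ
    fun s hs hs' => ?_
  have h1 := cps_sub_le hsc hsc' (badPrimes K m) hcc' hs
  have h2 : cps c s = ((sgSum (classFun D) A' s : ℝ) : ℂ) := by
    rw [hc, ← sum_mul_classFun D (fun u : (ZMod m)ˣ => if u ∈ A' then (1 : ℂ) else 0) hs]
    unfold sgSum
    push_cast
    refine Finset.sum_congr rfl fun u _ => ?_
    split_ifs <;> simp
  have h3 : cps c' s = (κ : ℂ) *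
      ((degOneSum (IntermediateField.fixedField (D ⊓ A'.comap (cycChar hζ))) s : ℝ) : ℂ) := by
    rw [hc', cps_const_mul, degOneSum_cast]
  rw [h2, h3] at h1
  have h4 : ‖sgSum (classFun D) A' s -
      κ * degOneSum (IntermediateField.fixedField (D ⊓ A'.comap (cycChar hζ))) s‖ ≤
      ∑ p ∈ badPrimes K m, ‖c p - c' p‖ := by
    rw [← Complex.norm_real]
    push_cast
    exact h1
  have h5' := hB s hs hs'
  have h6 : sgSum (classFun D) A' s - κ * Real.log (1 / (s - 1)) =
      (sgSum (classFun D) A' s -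
        κ * degOneSum (IntermediateField.fixedField (D ⊓ A'.comap (cycChar hζ))) s) +
      κ * (degOneSum (IntermediateField.fixedField (D ⊓ A'.comap (cycChar hζ))) s -
        Real.log (1 / (s - 1))) := by ring
  rw [h6]
  refine (norm_add_le _ _).trans (add_le_add h4 ?_)
  rw [norm_mul, Real.norm_eq_abs, Real.norm_eq_abs]
  gcongr

/-- the analytic data of the abstract argument -/
theorem charData_classFun (h1 : IdealCharSumStatement) (h2 : AbelBoundedStatement)
    (h4 : EulerLogStatement) (D : Subgroup (K ≃ₐ[ℚ] K)) (χ : DirichletCharacter ℂ m) :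
    CharData (classFun D) χ := by
  obtain ⟨hsum, -, ℓ, B, hcont, hexp, hℓ⟩ := h4 (IntermediateField.fixedField D) m χ
  obtain ⟨c, B₁, hc⟩ := h1 (IntermediateField.fixedField D) m χ
  have hd : (1 : ℝ) ≤ (Module.finrank ℚ (IntermediateField.fixedField D) : ℝ) := by
    exact_mod_cast (Module.finrank_pos : 0 < Module.finrank ℚ (IntermediateField.fixedField D))
  have hr0 : (0 : ℝ) ≤ 1 - 1 / (Module.finrank ℚ (IntermediateField.fixedField D) : ℝ) := by
    have : 1 / (Module.finrank ℚ (IntermediateField.fixedField D) : ℝ) ≤ 1 := by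
      rw [div_le_one (by linarith)]
      exact hd
    linarith
  have hr1 : 1 - 1 / (Module.finrank ℚ (IntermediateField.fixedField D) : ℝ) < 1 := by
    have : 0 < 1 / (Module.finrank ℚ (IntermediateField.fixedField D) : ℝ) := by
      apply div_pos one_pos
      linarith
    linarith
  obtain ⟨Λ, hΛ1, hΛ2⟩ := h2 (normCharCoeff (IntermediateField.fixedField D) m χ) c B₁ _
    hr0 hr1 hc hsum
  refine ⟨fun s => LSeries (normCharCoeff (IntermediateField.fixedField D) m χ) (s : ℂ), ℓ, c, Λ,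
    B, hcont, hexp, hΛ1, hΛ2, fun s hs hs2 => ?_⟩
  rw [twSum_classFun D χ hs]
  exact hℓ s hs hs2

end main2

/-- **CH2-CYC**: the degree-one primes of `K^D` of norm `≡ a mod m` have Dirichlet density
`1/|D|`, from the five inputs. -/
theorem cycloDensity (h1 : IdealCharSumStatement) (h2 : AbelBoundedStatement)
    (h3 : LogLiftBoundedStatement) (h4 : EulerLogStatement) (h5 : SplitCountStatement) :
    CycloDensityStatement := by
  intro K _ _ _ m _ ζ hζ D hD g hg a hga
  have hu : cycChar hζ g ∈ D.map (cycChar hζ) := Subgroup.mem_map_of_mem _ hg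
  have hval : ((cycChar hζ g : (ZMod m)ˣ) : ZMod m) = a := cycChar_eq_of_pow_val hζ g a hga
  have hmain := abstractDensity h3 (classFun D)
    (fun u s _ => classDegOneSum_nonneg _ m _ s) (D.map (cycChar hζ))
    (fun u hu => bddNear_classFun_of_not_mem h5 hζ D hD u hu)
    (fun A' hA' => bddNear_sgSum h5 hζ D hD A' hA')
    (fun χ => charData_classFun h1 h2 h4 D χ) (cycChar hζ g) hu
  obtain ⟨B, δ, hδ, hB⟩ := hmain.exists_bound
  refine ⟨B, δ, hδ, fun s hs hs' => ?_⟩
  have h := hB s hs hs'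
  rw [Real.norm_eq_abs, card_map_cycChar hζ D hD] at h
  unfold classFun at h
  rw [hval] at h
  exact h

end Fermat.Agent.H62.Cheb2
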